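import Mathlib
import Fermat.Prelude.Def_ModularForm_HeckeOperator
import Fermat.Agent.S23.H143.PrimElt

/-!
# S16, work package E: the weight-2 Eisenstein series of level `Γ₀(p)`

`e_p = (p E₂(p τ) - E₂(τ)) / 24 = ((E₂ ∣[2] diag(p,1)) - E₂) / 24` is a modular form of weight `2`
on `Γ₀(p)` with `q`-expansion `(p - 1)/24 + ∑_{k ≥ 1} σ'(k) q^k`, where `σ'(k)` is the sum of the
divisors of `k` prime to `p`.
-/

set_option autoImplicit false

noncomputable section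

namespace Fermat.Agent.S16.H197

open UpperHalfPlane ModularForm EisensteinSeries CongruenceSubgroup Filter Topology
  Matrix.SpecialLinearGroup
open scoped MatrixGroups ModularForm Manifold Real

/-- For `γ ∈ Γ₀(N)`: the matrix `diag(N,1) γ diag(N,1)⁻¹ = [a, N b; c / N, d]`. -/
def conjDiag (N : ℕ) (γ : SL(2, ℤ)) (e : ℤ) (he : γ 1 0 = N * e) : SL(2, ℤ) :=
  ⟨!![γ 0 0, N * γ 0 1; e, γ 1 1], by
    have hdet := Fermat.Agent.S23.H143.primElt_det_eq γ
    rw [Matrix.det_fin_two_of]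
    linear_combination hdet + (γ 0 1) * he⟩

lemma conjDiag_apply_zero_zero (N : ℕ) (γ : SL(2, ℤ)) (e : ℤ) (he : γ 1 0 = N * e) :
    (conjDiag N γ e he) 0 0 = γ 0 0 := rfl

lemma conjDiag_apply_zero_one (N : ℕ) (γ : SL(2, ℤ)) (e : ℤ) (he : γ 1 0 = N * e) :
    (conjDiag N γ e he) 0 1 = N * γ 0 1 := rfl

lemma conjDiag_apply_one_zero (N : ℕ) (γ : SL(2, ℤ)) (e : ℤ) (he : γ 1 0 = N * e) :
    (conjDiag N γ e he) 1 0 = e := rfl

lemma conjDiag_apply_one_one (N : ℕ) (γ : SL(2, ℤ)) (e : ℤ) (he : γ 1 0 = N * e) :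
    (conjDiag N γ e he) 1 1 = γ 1 1 := rfl

lemma heckeDiagMatrix_mul_mapGL {N : ℕ} (hN : N ≠ 0) (γ : SL(2, ℤ)) (e : ℤ)
    (he : γ 1 0 = N * e) :
    heckeDiagMatrix N * mapGL ℝ γ = mapGL ℝ (conjDiag N γ e he) * heckeDiagMatrix N := by
  have hr := congrArg (Int.cast : ℤ → ℝ) he
  push_cast at hr
  ext i j
  rw [Matrix.GeneralLinearGroup.coe_mul, Matrix.GeneralLinearGroup.coe_mul, Matrix.mul_apply,
    Matrix.mul_apply, Fin.sum_univ_two, Fin.sum_univ_two]
  simp only [val_heckeDiagMatrix hN, Fermat.Agent.S23.H143.primElt_mapGL_apply]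
  fin_cases i <;> fin_cases j <;>
    simp [conjDiag_apply_zero_zero, conjDiag_apply_zero_one, conjDiag_apply_one_zero,
      conjDiag_apply_one_one, hr, mul_comm]

/-- The correction term `D₂` is compatible with conjugation by `diag(N,1)`. -/
lemma D2_conjDiag_slash {N : ℕ} (hN : N ≠ 0) (γ : SL(2, ℤ)) (e : ℤ) (he : γ 1 0 = N * e) :
    (D2 (conjDiag N γ e he)) ∣[(2 : ℤ)] heckeDiagMatrix N = D2 γ := by
  funext τ
  rw [slash_heckeDiagMatrix_apply 2 hN]
  have hNc : (N : ℂ) ≠ 0 := by exact_mod_cast hN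
  have hec : ((γ 1 0 : ℤ) : ℂ) = N * e := by exact_mod_cast congrArg (Int.cast : ℤ → ℂ) he
  simp only [D2]
  have hden : denom (conjDiag N γ e he) ((heckeDiagMatrix N • τ : ℍ) : ℂ) = denom γ τ := by
    simp only [denom, Matrix.SpecialLinearGroup.coe_GL_coe_matrix,
      Matrix.SpecialLinearGroup.map_apply_coe, RingHom.mapMatrix_apply, Int.coe_castRingHom,
      Matrix.map_apply, conjDiag_apply_one_zero, conjDiag_apply_one_one]
    rw [coe_heckeDiagMatrix_smul hN]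
    push_cast
    rw [hec]
    ring
  rw [hden, conjDiag_apply_one_zero, hec]
  have hd : denom γ τ ≠ 0 := denom_ne_zero _ τ
  have hpow : ((N : ℂ) ^ ((2 : ℤ) - 1)) = N := by norm_num
  rw [hpow]
  field_simp

lemma sub_slash_GL (k : ℤ) (g : GL (Fin 2) ℝ) (f₁ f₂ : ℍ → ℂ) :
    (f₁ - f₂) ∣[k] g = f₁ ∣[k] g - f₂ ∣[k] g := by
  rw [sub_eq_add_neg, SlashAction.add_slash, SlashAction.neg_slash, ← sub_eq_add_neg]

lemma sub_slash_SL (k : ℤ) (g : SL(2, ℤ)) (f₁ f₂ : ℍ → ℂ) :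
    (f₁ - f₂) ∣[k] g = f₁ ∣[k] g - f₂ ∣[k] g := by
  rw [sub_eq_add_neg, SlashAction.add_slash, SlashAction.neg_slash, ← sub_eq_add_neg]

/-- The function `e_N = ((E₂ ∣[2] diag(N,1)) - E₂) / 24`, i.e. `(N E₂(N τ) - E₂(τ)) / 24`. -/
def eisFun (N : ℕ) : ℍ → ℂ := (24 : ℂ)⁻¹ • ((E2 ∣[(2 : ℤ)] heckeDiagMatrix N) - E2)

lemma eisFun_apply {N : ℕ} (hN : N ≠ 0) (τ : ℍ) :
    eisFun N τ = ((N : ℂ) * E2 (heckeDiagMatrix N • τ) - E2 τ) / 24 := by
  simp only [eisFun, Pi.smul_apply, Pi.sub_apply, smul_eq_mul]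
  rw [slash_heckeDiagMatrix_apply 2 hN]
  have hpow : ((N : ℂ) ^ ((2 : ℤ) - 1)) = N := by norm_num
  rw [hpow]
  ring

lemma E2_slash_heckeDiagMatrix_slash {N : ℕ} (hN : N ≠ 0) (γ : SL(2, ℤ)) (e : ℤ)
    (he : γ 1 0 = N * e) :
    (E2 ∣[(2 : ℤ)] heckeDiagMatrix N) ∣[(2 : ℤ)] γ =
      (E2 ∣[(2 : ℤ)] heckeDiagMatrix N) - (1 / (2 * riemannZeta 2)) • D2 γ := by
  have h1 : (E2 ∣[(2 : ℤ)] heckeDiagMatrix N) ∣[(2 : ℤ)] γ =
      (E2 ∣[(2 : ℤ)] (conjDiag N γ e he)) ∣[(2 : ℤ)] heckeDiagMatrix N := by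
    rw [ModularForm.SL_slash, ModularForm.SL_slash, ← SlashAction.slash_mul,
      ← SlashAction.slash_mul]
    congr 1
    exact heckeDiagMatrix_mul_mapGL hN γ e he
  rw [h1, E2_slash_action, sub_slash_GL, ModularForm.smul_slash, σ_heckeDiagMatrix,
    D2_conjDiag_slash hN γ e he]
  rfl

/-- `e_N` is invariant under `Γ₀(N)` in weight `2`. -/
theorem eisFun_slash_of_mem_Gamma0 {N : ℕ} (hN : N ≠ 0) (γ : SL(2, ℤ)) (hγ : γ ∈ Gamma0 N) :
    eisFun N ∣[(2 : ℤ)] γ = eisFun N := by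
  have hγ' : ((γ 1 0 : ℤ) : ZMod N) = 0 := by simpa [Gamma0_mem] using hγ
  obtain ⟨e, he⟩ := (ZMod.intCast_zmod_eq_zero_iff_dvd _ _).mp hγ'
  rw [eisFun, ModularForm.SL_smul_slash, sub_slash_SL,
    E2_slash_heckeDiagMatrix_slash hN γ e he, E2_slash_action]
  congr 1
  abel

/-- `e_N` is holomorphic. -/
theorem eisFun_mdifferentiable (N : ℕ) : MDiff (eisFun N) :=
  ((E2_mdifferentiable.slash 2 (heckeDiagMatrix N)).sub E2_mdifferentiable).const_smul _

/-! ### Boundedness at the cusps -/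

lemma isBoundedAtImInfty_sub {f g : ℍ → ℂ} (hf : IsBoundedAtImInfty f)
    (hg : IsBoundedAtImInfty g) : IsBoundedAtImInfty (f - g) := by
  rw [sub_eq_add_neg]
  exact BoundedAtFilter.add hf (BoundedAtFilter.neg hg)

lemma isBoundedAtImInfty_const_smul {f : ℍ → ℂ} (c : ℂ) (hf : IsBoundedAtImInfty f) :
    IsBoundedAtImInfty (c • f) :=
  BoundedAtFilter.smul c hf

/-- The correction term `D₂ g` is bounded at `i∞`. -/
lemma isBoundedAtImInfty_D2 (g : SL(2, ℤ)) : IsBoundedAtImInfty (D2 g) := by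
  rw [isBoundedAtImInfty_iff]
  refine ⟨2 * π, 1, fun z hz ↦ ?_⟩
  simp only [D2]
  rcases eq_or_ne (g 1 0) 0 with h0 | h0
  · simp [h0]; positivity
  · have hden : denom g z ≠ 0 := denom_ne_zero _ z
    rw [norm_div, div_le_iff₀ (norm_pos_iff.mpr hden)]
    have hc : (1 : ℝ) ≤ |((g 1 0 : ℤ) : ℝ)| := by
      have : (1 : ℤ) ≤ |g 1 0| := Int.one_le_abs h0
      exact_mod_cast this
    have him : |((g 1 0 : ℤ) : ℝ)| * z.im ≤ ‖denom g z‖ := by
      have h1 : (denom g z).im = ((g 1 0 : ℤ) : ℝ) * z.im := by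
        simp [denom]
      calc |((g 1 0 : ℤ) : ℝ)| * z.im = |(denom g z).im| := by
            rw [h1, abs_mul, abs_of_pos z.im_pos]
        _ ≤ ‖denom g z‖ := Complex.abs_im_le_norm _
    have hnum : ‖2 * (π : ℂ) * Complex.I * ((g 1 0 : ℤ) : ℂ)‖ = 2 * π * |((g 1 0 : ℤ) : ℝ)| := by
      rw [norm_mul, norm_mul, norm_mul, Complex.norm_I, mul_one]
      have h2 : ‖(2 : ℂ)‖ = 2 := by norm_num
      have h3 : ‖(π : ℂ)‖ = π := by
        rw [Complex.norm_real, Real.norm_eq_abs, abs_of_pos Real.pi_pos]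
      have h4 : ‖((g 1 0 : ℤ) : ℂ)‖ = |((g 1 0 : ℤ) : ℝ)| := by
        rw [← Complex.ofReal_intCast, Complex.norm_real, Real.norm_eq_abs]
      rw [h2, h3, h4]
    rw [hnum]
    have hpi : 0 < 2 * π := by positivity
    calc 2 * π * |((g 1 0 : ℤ) : ℝ)| ≤ 2 * π * (|((g 1 0 : ℤ) : ℝ)| * z.im) := by
          apply mul_le_mul_of_nonneg_left _ hpi.le
          calc |((g 1 0 : ℤ) : ℝ)| = |((g 1 0 : ℤ) : ℝ)| * 1 := (mul_one _).symm
            _ ≤ |((g 1 0 : ℤ) : ℝ)| * z.im := by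
              apply mul_le_mul_of_nonneg_left hz (abs_nonneg _)
      _ ≤ 2 * π * ‖denom g z‖ := mul_le_mul_of_nonneg_left him hpi.le

/-- `E₂ ∣[2] g` is bounded at `i∞` for every `g ∈ SL₂(ℤ)`. -/
lemma isBoundedAtImInfty_E2_slash (g : SL(2, ℤ)) : IsBoundedAtImInfty (E2 ∣[(2 : ℤ)] g) := by
  rw [E2_slash_action]
  exact isBoundedAtImInfty_sub isBoundedAtImInfty_E2
    (isBoundedAtImInfty_const_smul _ (isBoundedAtImInfty_D2 g))

/-- Slashing by an upper triangular matrix with positive diagonal preserves boundedness at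
`i∞`. -/
lemma isBoundedAtImInfty_slash_upperTriangularGL (k : ℤ) {a d : ℝ} (b : ℝ) (ha : 0 < a)
    (hd : 0 < d) (had : a * d ≠ 0) {f : ℍ → ℂ} (hf : IsBoundedAtImInfty f) :
    IsBoundedAtImInfty (f ∣[k] upperTriangularGL a b d had) := by
  have h1 : Tendsto (fun τ : ℍ ↦ upperTriangularGL a b d had • τ) atImInfty atImInfty :=
    tendsto_smul_atImInfty (by simp)
  have h2 : IsBoundedAtImInfty (fun τ : ℍ ↦ f (upperTriangularGL a b d had • τ)) :=
    hf.comp_tendsto h1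
  have h3 : f ∣[k] upperTriangularGL a b d had =
      ((((a : ℂ) * d) ^ (k - 1) * (d : ℂ) ^ (-k)) •
        fun τ : ℍ ↦ f (upperTriangularGL a b d had • τ)) := by
    funext τ
    rw [Fermat.Agent.S23.H143.slash_upperTriangularGL_apply k b ha hd had]
    simp only [Pi.smul_apply, smul_eq_mul]
    ring
  rw [h3]
  exact isBoundedAtImInfty_const_smul _ h2

/-- `(E₂ ∣[2] diag(N,1)) ∣[2] g` is bounded at `i∞` for every `g ∈ SL₂(ℤ)`. -/
lemma isBoundedAtImInfty_E2_slash_heckeDiagMatrix_slash {N : ℕ} (hN : N ≠ 0) (g : SL(2, ℤ)) :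
    IsBoundedAtImInfty ((E2 ∣[(2 : ℤ)] heckeDiagMatrix N) ∣[(2 : ℤ)] g) := by
  obtain ⟨h, b, a, d, had, -, -, hmat⟩ := Fermat.Agent.S23.H143.primElt_hermite hN g
  have ha0 : (0 : ℝ) < a := by
    rcases Nat.eq_zero_or_pos a with h0 | h0
    · simp [h0] at had
    · exact_mod_cast h0
  have hd0 : (0 : ℝ) < d := by
    rcases Nat.eq_zero_or_pos d with h0 | h0
    · simp [h0] at had
    · exact_mod_cast h0
  have hfun : (E2 ∣[(2 : ℤ)] heckeDiagMatrix N) ∣[(2 : ℤ)] g =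
      (E2 ∣[(2 : ℤ)] h) ∣[(2 : ℤ)] (upperTriangularGL a b d had) := by
    rw [ModularForm.SL_slash, ModularForm.SL_slash, ← SlashAction.slash_mul,
      ← SlashAction.slash_mul]
    congr 1
  rw [hfun]
  exact isBoundedAtImInfty_slash_upperTriangularGL 2 (b : ℝ) ha0 hd0 had
    (isBoundedAtImInfty_E2_slash h)

/-- `e_N ∣[2] g` is bounded at `i∞` for every `g ∈ SL₂(ℤ)`. -/
theorem isBoundedAtImInfty_eisFun_slash {N : ℕ} (hN : N ≠ 0) (g : SL(2, ℤ)) :
    IsBoundedAtImInfty (eisFun N ∣[(2 : ℤ)] g) := by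
  rw [eisFun, ModularForm.SL_smul_slash, sub_slash_SL]
  exact isBoundedAtImInfty_const_smul _
    (isBoundedAtImInfty_sub (isBoundedAtImInfty_E2_slash_heckeDiagMatrix_slash hN g)
      (isBoundedAtImInfty_E2_slash g))

/-! ### The modular form -/

/-- The Eisenstein series `e_N = (N E₂(N τ) - E₂(τ)) / 24` as a modular form of weight `2` on
`Γ₀(N)`. -/
def eisMF (N : ℕ) [NeZero N] : ModularForm (Gamma0 N : Subgroup (GL (Fin 2) ℝ)) 2 where
  toFun := eisFun N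
  slash_action_eq' := by
    rintro γ ⟨g, hg, rfl⟩
    exact eisFun_slash_of_mem_Gamma0 (NeZero.ne N) g hg
  holo' := eisFun_mdifferentiable N
  bdd_at_cusps' {c} hc := by
    rw [Subgroup.IsArithmetic.isCusp_iff_isCusp_SL2Z] at hc
    rw [OnePoint.isBoundedAt_iff_forall_SL2Z hc]
    intro γ _
    exact isBoundedAtImInfty_eisFun_slash (NeZero.ne N) γ

@[simp] lemma coe_eisMF (N : ℕ) [NeZero N] : ⇑(eisMF N) = eisFun N := rfl

lemma eisMF_apply (N : ℕ) [NeZero N] (τ : ℍ) :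
    eisMF N τ = ((N : ℂ) * E2 (heckeDiagMatrix N • τ) - E2 τ) / 24 :=
  eisFun_apply (NeZero.ne N) τ

/-! ### The `q`-expansion -/

/-- The integer `σ₁(m) - N σ₁(m / N) [N ∣ m]`; for `N = p` prime this is the sum of the divisors
of `m` prime to `p`. -/
def sigmaCop (N m : ℕ) : ℤ :=
  (ArithmeticFunction.sigma 1 m : ℤ) - if N ∣ m then (N : ℤ) * ArithmeticFunction.sigma 1 (m / N)
    else 0

/-- The `q`-expansion coefficients of `e_N`. -/
def eisCoeff (N m : ℕ) : ℂ := if m = 0 then ((N : ℂ) - 1) / 24 else (sigmaCop N m : ℂ)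

/-- The `q`-expansion of `E₂`, with `q = 𝕢 1 τ`. -/
lemma hasSum_E2_qParam (τ : ℍ) :
    HasSum (fun m : ℕ ↦ (if m = 0 then 1 else -24 * (ArithmeticFunction.sigma 1 m : ℂ)) *
      Function.Periodic.qParam 1 (τ : ℂ) ^ m) (E2 τ) := by
  have h := hasSum_qExpansion_E2 (z := τ)
  simpa only [Function.Periodic.qParam, Complex.ofReal_one, div_one, smul_eq_mul] using h

theorem hasSum_eisFun {N : ℕ} (hN : N ≠ 0) (τ : ℍ) :
    HasSum (fun m : ℕ ↦ eisCoeff N m • Function.Periodic.qParam 1 (τ : ℂ) ^ m)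
      (eisFun N τ) := by
  have : NeZero N := ⟨hN⟩
  have hNpos : 0 < N := Nat.pos_of_ne_zero hN
  set q := Function.Periodic.qParam 1 (τ : ℂ) with hq
  set c : ℕ → ℂ := fun m ↦ if m = 0 then 1 else -24 * (ArithmeticFunction.sigma 1 m : ℂ)
    with hc
  -- expansion of `E₂(N τ)`
  have h1 := hasSum_E2_qParam (heckeDiagMatrix N • τ)
  rw [Fermat.Agent.S23.H143.qParam_heckeDiagMatrix_smul] at h1
  have hinj : Function.Injective (fun m : ℕ ↦ N * m) := fun a b h ↦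
    Nat.eq_of_mul_eq_mul_left hNpos h
  have h2 : HasSum (fun m : ℕ ↦ (if N ∣ m then c (m / N) else 0) * q ^ m)
      (E2 (heckeDiagMatrix N • τ)) := by
    rw [← hinj.hasSum_iff]
    · convert h1 using 1
      funext m
      simp only [Function.comp_apply, dvd_mul_right, if_true, Nat.mul_div_cancel_left m hNpos]
      rw [pow_mul]
    · intro x hx
      have : ¬ N ∣ x := fun ⟨m, hm⟩ ↦ hx ⟨m, hm.symm⟩
      simp [this]
  have h3 := hasSum_E2_qParam τ
  have h4 := ((h2.mul_left (N : ℂ)).sub h3).div_const 24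
  rw [eisFun_apply hN]
  have hfun : (fun m : ℕ ↦ eisCoeff N m • q ^ m) = fun i : ℕ ↦
      ((N : ℂ) * ((if N ∣ i then c (i / N) else 0) * q ^ i) -
        (if i = 0 then 1 else -24 * (ArithmeticFunction.sigma 1 i : ℂ)) * q ^ i) / 24 := by
    funext m
    simp only [eisCoeff, sigmaCop, smul_eq_mul, hc]
    rcases Nat.eq_zero_or_pos m with rfl | hm
    · simp
    · have hm0 : m ≠ 0 := hm.ne'
      by_cases hdvd : N ∣ m
      · have hmN : m / N ≠ 0 := by
          obtain ⟨k, rfl⟩ := hdvd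
          rw [Nat.mul_div_cancel_left k hNpos]
          rintro rfl
          simp at hm0
        simp only [hm0, hdvd, hmN, if_true, if_false]
        push_cast
        ring
      · simp only [hm0, hdvd, if_false]
        push_cast
        ring
  rw [hfun]
  exact h4

/-- The `q`-expansion of `e_N`: constant term `(N - 1)/24`, and `m`-th coefficient
`σ₁(m) - N σ₁(m/N) [N ∣ m]` for `m ≥ 1`. -/
theorem qExpansion_eisMF_coeff (N : ℕ) [NeZero N] (m : ℕ) :
    (qExpansion 1 (eisMF N)).coeff m = eisCoeff N m :=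
  (ModularFormClass.qExpansion_coeff_unique one_pos
    (CongruenceSubgroup.one_mem_strictPeriods_Gamma0 N)
    (fun τ ↦ hasSum_eisFun (NeZero.ne N) τ) m).symm

theorem qExpansion_eisMF_coeff_zero (N : ℕ) [NeZero N] :
    (qExpansion 1 (eisMF N)).coeff 0 = ((N : ℂ) - 1) / 24 := by
  rw [qExpansion_eisMF_coeff]; simp [eisCoeff]

theorem qExpansion_eisMF_coeff_pos (N : ℕ) [NeZero N] {m : ℕ} (hm : m ≠ 0) :
    (qExpansion 1 (eisMF N)).coeff m = (sigmaCop N m : ℂ) := by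
  rw [qExpansion_eisMF_coeff]; simp [eisCoeff, hm]

/-! ### `sigmaCop` for prime level -/

/-- For `p` prime, `sigmaCop p m` is the sum of the divisors of `m` prime to `p`. -/
theorem sigmaCop_prime {p : ℕ} (hp : p.Prime) (m : ℕ) :
    sigmaCop p m = ∑ d ∈ m.divisors with ¬ p ∣ d, (d : ℤ) := by
  rcases Nat.eq_zero_or_pos m with rfl | hm
  · simp [sigmaCop]
  have hsplit : (ArithmeticFunction.sigma 1 m : ℤ) =
      (∑ d ∈ m.divisors with ¬ p ∣ d, (d : ℤ)) + ∑ d ∈ m.divisors with p ∣ d, (d : ℤ) := by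
    rw [ArithmeticFunction.sigma_apply]
    push_cast
    simp only [pow_one]
    rw [add_comm]
    exact (Finset.sum_filter_add_sum_filter_not m.divisors (fun d ↦ p ∣ d) _).symm
  have hdiv : (∑ d ∈ m.divisors with p ∣ d, (d : ℤ)) =
      if p ∣ m then (p : ℤ) * ArithmeticFunction.sigma 1 (m / p) else 0 := by
    split_ifs with hpm
    · obtain ⟨k, rfl⟩ := hpm
      have hk : 0 < k := Nat.pos_of_mul_pos_right hm |> fun h ↦ by
        rcases Nat.eq_zero_or_pos k with rfl | hk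
        · simp at hm
        · exact hk
      rw [Nat.mul_div_cancel_left k hp.pos, ArithmeticFunction.sigma_apply]
      push_cast
      simp only [pow_one]
      rw [Finset.mul_sum]
      refine (Finset.sum_bij (fun d _ ↦ p * d) ?_ ?_ ?_ ?_).symm
      · intro d hd
        rw [Finset.mem_filter, Nat.mem_divisors]
        rw [Nat.mem_divisors] at hd
        exact ⟨⟨Nat.mul_dvd_mul_left p hd.1, (Nat.mul_pos hp.pos hk).ne'⟩, dvd_mul_right p d⟩
      · intro a _ b _ h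
        exact Nat.eq_of_mul_eq_mul_left hp.pos h
      · intro d hd
        rw [Finset.mem_filter, Nat.mem_divisors] at hd
        obtain ⟨⟨hdm, -⟩, e, rfl⟩ := hd
        refine ⟨e, ?_, rfl⟩
        rw [Nat.mem_divisors]
        exact ⟨(Nat.mul_dvd_mul_iff_left hp.pos).mp hdm, hk.ne'⟩
      · intro d _
        push_cast
        ring
    · apply Finset.sum_eq_zero
      intro d hd
      rw [Finset.mem_filter, Nat.mem_divisors] at hd
      exact absurd (hd.2.trans hd.1.1) hpm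
  rw [sigmaCop, hsplit, hdiv]
  ring

/-- **WP-E.** For `p` prime, `e_p ∈ M₂(Γ₀(p))` has `q`-expansion
`(p - 1)/24 + ∑_{m ≥ 1} σ'(m) q^m`, `σ'(m)` the sum of the divisors of `m` prime to `p`. -/
theorem qExpansion_eisMF_coeff_prime (p : ℕ) [Fact p.Prime] [NeZero p] (m : ℕ) :
    (qExpansion 1 (eisMF p)).coeff m =
      if m = 0 then ((p : ℂ) - 1) / 24
      else ((∑ d ∈ m.divisors with ¬ p ∣ d, (d : ℤ) : ℤ) : ℂ) := by
  rw [qExpansion_eisMF_coeff, eisCoeff, sigmaCop_prime (Fact.out : p.Prime)]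

/-- All `q`-coefficients of `e_N` of positive index are integers. -/
theorem exists_int_qExpansion_eisMF_coeff (N : ℕ) [NeZero N] {m : ℕ} (hm : m ≠ 0) :
    ∃ z : ℤ, (qExpansion 1 (eisMF N)).coeff m = (z : ℂ) :=
  ⟨sigmaCop N m, qExpansion_eisMF_coeff_pos N hm⟩

end Fermat.Agent.S16.H197
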