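import Mathlib
import Fermat.Prelude.Def_CuspForm_IntegralStructure
import Fermat.Prelude.Def_ModularCurve_ModularUnit
import Fermat.Prelude.Thm_CongruenceSubgroup_one_mem_strictPeriods_Gamma0
import Fermat.Agent.S16.H197.Eis

/-!
# S16, BRIDGE: from the modular-forms statements (UB), (LB), (C) to (UB'), (LB')

With `ν = gcd (p - 1) 12`, `n = (p - 1) / ν = eisensteinNumerator p`, `σ'(k) = sigmaP p k` the sum
of the divisors of `k` prime to `p`, and `e_p = eisMF p`: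

* `(UB)`: `G ∈ M₂(Γ₀(p))`, `a_k(G) ∈ ℤ` for `k ≥ 1` ⟹ `(24/ν) a₀(G) ∈ ℤ`;
* `(LB)`: there is `G₁ ∈ M₂(Γ₀(p))` with `a₀ = 1/2` and `a_k ∈ ℤ` for `k ≥ 1`;
* `(C)`: `G ∈ M₂(Γ₀(p))` with `a₀(G) = 0` is a cusp form.

Then
* `(UB')`: if `f ∈ S₂(Γ₀(p))` has integer coefficients `a_k ≡ σ'(k) mod m` (`k ≥ 1`), then `m ∣ n`;
* `(LB')`: there are `h ∈ intLattice p 2` and `c` coprime to `n` with `a_k(h) ≡ c σ'(k) mod n`.
-/

set_option autoImplicit false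

noncomputable section

namespace Fermat.Agent.S16.H197

open UpperHalfPlane ModularForm CongruenceSubgroup ModularFormClass ModularCurve
open scoped MatrixGroups ModularForm Manifold

/-- The sum of the divisors of `k` prime to `p`. -/
def sigmaP (p k : ℕ) : ℤ := ∑ d ∈ k.divisors with ¬ p ∣ d, (d : ℤ)

lemma qCoeff_eisMF_zero (p : ℕ) [NeZero p] : qCoeff (eisMF p) 0 = ((p : ℂ) - 1) / 24 :=
  qExpansion_eisMF_coeff_zero p

lemma qCoeff_eisMF_pos (p : ℕ) [Fact p.Prime] [NeZero p] {k : ℕ} (hk : 1 ≤ k) :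
    qCoeff (eisMF p) k = (sigmaP p k : ℂ) := by
  have h := qExpansion_eisMF_coeff_prime p k
  rw [if_neg (by omega)] at h
  exact h

lemma qCoeff_sub' {N : ℕ} (f g : ModularForm (Gamma0 N : Subgroup (GL (Fin 2) ℝ)) 2) (k : ℕ) :
    qCoeff (⇑(f - g)) k = qCoeff f k - qCoeff g k := by
  simp only [qCoeff]
  rw [FunLike.coe_sub, ModularForm.qExpansion_sub one_pos (one_mem_strictPeriods_Gamma0 N) f g,
    map_sub]

lemma qCoeff_smul' {N : ℕ} (c : ℂ) (f : ModularForm (Gamma0 N : Subgroup (GL (Fin 2) ℝ)) 2)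
    (k : ℕ) : qCoeff (⇑(c • f)) k = c * qCoeff f k := by
  simp only [qCoeff]
  rw [FunLike.coe_smul, ModularForm.qExpansion_smul one_pos (one_mem_strictPeriods_Gamma0 N) c f,
    PowerSeries.coeff_smul, smul_eq_mul]

/-! ### Arithmetic of `ν`, `n` -/

lemma gcd_dvd_twelve (p : ℕ) : Nat.gcd (p - 1) 12 ∣ 12 := Nat.gcd_dvd_right _ _

lemma gcd_pos' (p : ℕ) : 0 < Nat.gcd (p - 1) 12 := Nat.gcd_pos_of_pos_right _ (by norm_num)

lemma eisensteinNumerator_mul_gcd (p : ℕ) :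
    eisensteinNumerator p * Nat.gcd (p - 1) 12 = p - 1 :=
  Nat.div_mul_cancel (Nat.gcd_dvd_left _ _)

lemma twelve_div_mul_gcd (p : ℕ) : 12 / Nat.gcd (p - 1) 12 * Nat.gcd (p - 1) 12 = 12 :=
  Nat.div_mul_cancel (gcd_dvd_twelve p)

lemma coprime_twelve_div_eisensteinNumerator (p : ℕ) :
    Nat.Coprime (12 / Nat.gcd (p - 1) 12) (eisensteinNumerator p) := by
  have h := Nat.coprime_div_gcd_div_gcd (gcd_pos' p)
  rw [eisensteinNumerator]
  exact h.symm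

/-! ### The statements -/

/-- `(UB)`: integrality of the higher coefficients forces `(24/ν) a₀ ∈ ℤ`. -/
def UBStatement (p : ℕ) : Prop :=
  ∀ G : ModularForm (Gamma0 p : Subgroup (GL (Fin 2) ℝ)) 2,
    (∀ k : ℕ, 1 ≤ k → ∃ z : ℤ, qCoeff G k = (z : ℂ)) →
      ∃ z : ℤ, ((24 / Nat.gcd (p - 1) 12 : ℕ) : ℂ) * qCoeff G 0 = (z : ℂ)

/-- `(LB)`: a form with constant term `1/2` and integral higher coefficients. -/
def LBStatement (p : ℕ) : Prop :=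
  ∃ G : ModularForm (Gamma0 p : Subgroup (GL (Fin 2) ℝ)) 2,
    qCoeff G 0 = 1 / 2 ∧ ∀ k : ℕ, 1 ≤ k → ∃ z : ℤ, qCoeff G k = (z : ℂ)

/-- `(C)`: a weight-2 form on `Γ₀(p)` with vanishing constant term at `∞` is a cusp form. -/
def CStatement (p : ℕ) : Prop :=
  ∀ G : ModularForm (Gamma0 p : Subgroup (GL (Fin 2) ℝ)) 2, qCoeff G 0 = 0 →
    ∃ F : CuspForm (Gamma0 p : Subgroup (GL (Fin 2) ℝ)) 2, (⇑F : ℍ → ℂ) = ⇑G

/-- `(UB')`. -/
def UBPrimeStatement (p : ℕ) : Prop :=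
  ∀ m : ℕ, 1 ≤ m → ∀ f : CuspForm (Gamma0 p : Subgroup (GL (Fin 2) ℝ)) 2,
    (∀ k : ℕ, 1 ≤ k → ∃ z : ℤ, qCoeff f k = (z : ℂ) ∧ (m : ℤ) ∣ z - sigmaP p k) →
      m ∣ eisensteinNumerator p

/-- `(LB')`. -/
def LBPrimeStatement (p : ℕ) : Prop :=
  ∃ h : CuspForm (Gamma0 p : Subgroup (GL (Fin 2) ℝ)) 2, h ∈ CuspForm.intLattice p 2 ∧
    ∃ c : ℤ, IsCoprime c (eisensteinNumerator p : ℤ) ∧
      ∀ k : ℕ, 1 ≤ k → ∃ z : ℤ, qCoeff h k = (z : ℂ) ∧
        (eisensteinNumerator p : ℤ) ∣ z - c * sigmaP p k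

/-! ### `(UB) + (E) ⟹ (UB')` -/

theorem ubPrime_of_ub (p : ℕ) [Fact p.Prime] (hUB : UBStatement p) : UBPrimeStatement p := by
  have : NeZero p := ⟨(Fact.out : p.Prime).ne_zero⟩
  intro m hm f hf
  have hmC : (m : ℂ) ≠ 0 := by exact_mod_cast (by omega : m ≠ 0)
  -- the form `G = (e - f) / m`
  set G : ModularForm (Gamma0 p : Subgroup (GL (Fin 2) ℝ)) 2 :=
    (m : ℂ)⁻¹ • (eisMF p - CuspForm.toModularFormₗ f) with hG
  have hcoeff : ∀ k, qCoeff G k = (m : ℂ)⁻¹ * (qCoeff (eisMF p) k - qCoeff f k) := by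
    intro k
    rw [hG, qCoeff_smul', qCoeff_sub']
    rfl
  have hint : ∀ k : ℕ, 1 ≤ k → ∃ z : ℤ, qCoeff G k = (z : ℂ) := by
    intro k hk
    obtain ⟨z, hz, w, hw⟩ := hf k hk
    refine ⟨-w, ?_⟩
    rw [hcoeff, qCoeff_eisMF_pos p hk, hz]
    have : (z : ℂ) = (sigmaP p k : ℂ) + (m : ℂ) * (w : ℂ) := by
      have := congrArg (Int.cast : ℤ → ℂ) hw
      push_cast at this
      linear_combination this
    rw [this]
    push_cast
    field_simp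
    ring
  obtain ⟨z, hz⟩ := hUB G hint
  have hf0 : qCoeff f 0 = 0 := by
    have := CuspFormClass.qExpansion_coeff_zero f one_pos (one_mem_strictPeriods_Gamma0 p)
    simpa [qCoeff] using this
  rw [hcoeff, qCoeff_eisMF_zero, hf0, sub_zero] at hz
  -- arithmetic: `(24/ν) (p-1) = 24 m z`
  have hp1 : 1 ≤ p := (Fact.out : p.Prime).one_lt.le
  have hpC : ((p : ℂ) - 1) = ((p - 1 : ℕ) : ℂ) := by
    rw [Nat.cast_sub hp1]; simp
  have h1 : (((24 / Nat.gcd (p - 1) 12 : ℕ) : ℂ)) * ((p - 1 : ℕ) : ℂ) = 24 * (m : ℂ) * (z : ℂ) := by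
    rw [hpC] at hz
    field_simp at hz
    linear_combination hz
  have h2 : ((24 / Nat.gcd (p - 1) 12 * (p - 1) : ℕ) : ℤ) = 24 * (m : ℤ) * z := by
    have : (((24 / Nat.gcd (p - 1) 12 * (p - 1) : ℕ) : ℤ) : ℂ) = ((24 * (m : ℤ) * z : ℤ) : ℂ) := by
      push_cast
      exact h1
    exact_mod_cast this
  have h3 : 24 / Nat.gcd (p - 1) 12 * (p - 1) = 24 * eisensteinNumerator p := by
    have hν : Nat.gcd (p - 1) 12 ∣ 24 := (gcd_dvd_twelve p).trans (by norm_num)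
    have e1 := Nat.div_mul_cancel hν
    have e2 := eisensteinNumerator_mul_gcd p
    have hpos := gcd_pos' p
    apply Nat.eq_of_mul_eq_mul_right hpos
    calc 24 / Nat.gcd (p - 1) 12 * (p - 1) * Nat.gcd (p - 1) 12
        = (24 / Nat.gcd (p - 1) 12 * Nat.gcd (p - 1) 12) * (p - 1) := by ring
      _ = 24 * (p - 1) := by rw [e1]
      _ = 24 * (eisensteinNumerator p * Nat.gcd (p - 1) 12) := by rw [e2]
      _ = 24 * eisensteinNumerator p * Nat.gcd (p - 1) 12 := by ring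
  rw [h3] at h2
  push_cast at h2
  have h4 : (eisensteinNumerator p : ℤ) = (m : ℤ) * z := by linarith
  have h5 : (m : ℤ) ∣ (eisensteinNumerator p : ℤ) := ⟨z, h4⟩
  exact_mod_cast h5

/-! ### `(LB) + (E) + (C) ⟹ (LB')` -/

theorem lbPrime_of_lb (p : ℕ) [Fact p.Prime] (hLB : LBStatement p) (hC : CStatement p) :
    LBPrimeStatement p := by
  have : NeZero p := ⟨(Fact.out : p.Prime).ne_zero⟩
  obtain ⟨G1, hG0, hGk⟩ := hLB
  set ν := Nat.gcd (p - 1) 12 with hν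
  set n := eisensteinNumerator p with hn
  -- the form `H = (12/ν) e - n G₁`
  set H : ModularForm (Gamma0 p : Subgroup (GL (Fin 2) ℝ)) 2 :=
    ((12 / ν : ℕ) : ℂ) • eisMF p - (n : ℂ) • G1 with hH
  have hcoeff : ∀ k, qCoeff H k =
      ((12 / ν : ℕ) : ℂ) * qCoeff (eisMF p) k - (n : ℂ) * qCoeff G1 k := by
    intro k
    rw [hH, qCoeff_sub', qCoeff_smul', qCoeff_smul']
  have hp1 : 1 ≤ p := (Fact.out : p.Prime).one_lt.le
  have hpC : ((p : ℂ) - 1) = ((p - 1 : ℕ) : ℂ) := by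
    rw [Nat.cast_sub hp1]; simp
  have h12 : ((12 / ν : ℕ) : ℂ) * ((p - 1 : ℕ) : ℂ) = 12 * (n : ℂ) := by
    have e1 : 12 / ν * ν = 12 := twelve_div_mul_gcd p
    have e2 : n * ν = p - 1 := eisensteinNumerator_mul_gcd p
    have : 12 / ν * (p - 1) = 12 * n := by
      rw [← e2]
      calc 12 / ν * (n * ν) = (12 / ν * ν) * n := by ring
        _ = 12 * n := by rw [e1]
    exact_mod_cast congrArg (Nat.cast : ℕ → ℂ) this
  have hH0 : qCoeff H 0 = 0 := by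
    rw [hcoeff, qCoeff_eisMF_zero, hG0, hpC]
    linear_combination (1 / 24 : ℂ) * h12
  obtain ⟨F, hF⟩ := hC H hH0
  have hFk : ∀ k : ℕ, 1 ≤ k → ∃ z : ℤ, qCoeff F k = (z : ℂ) ∧
      (n : ℤ) ∣ z - ((12 / ν : ℕ) : ℤ) * sigmaP p k := by
    intro k hk
    obtain ⟨w, hw⟩ := hGk k hk
    refine ⟨((12 / ν : ℕ) : ℤ) * sigmaP p k - (n : ℤ) * w, ?_, ⟨-w, by ring⟩⟩
    rw [hF, hcoeff, qCoeff_eisMF_pos p hk, hw]
    simp only [Int.cast_sub, Int.cast_mul, Int.cast_natCast]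
  refine ⟨F, ?_, ((12 / ν : ℕ) : ℤ), ?_, hFk⟩
  · apply Submodule.subset_span
    intro k
    rcases Nat.eq_zero_or_pos k with rfl | hk
    · exact ⟨0, by rw [hF, hH0]; simp⟩
    · obtain ⟨z, hz, -⟩ := hFk k hk
      exact ⟨z, hz⟩
  · exact Nat.isCoprime_iff_coprime.mpr (coprime_twelve_div_eisensteinNumerator p)

end Fermat.Agent.S16.H197
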